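import Fermat.Agent.AV.Red.Space

/-!
# Reduction of principal divisors

The divisor of a unit of the Gauss place reduces to the divisor of its reduction.
-/

set_option autoImplicit false
set_option linter.unusedSectionVars false

noncomputable section

open scoped TensorProduct
open AlgebraicCurve Fermat.Agent.FF Fermat.Agent.FF.ConstExt

universe u

namespace Fermat.Agent.AV

section General

variable {K M : Type u} [Field K] [Field M] [Algebra K M] [IsFunctionField K M] [IsAlgClosed K]

theorem eq_of_le_of_degree_eq {D E : Divisor K M} (h : D ≤ E)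
    (hd : Divisor.degree D = Divisor.degree E) : D = E := by
  classical
  by_contra hne
  obtain ⟨P, hP⟩ : ∃ P, D P < E P := by
    by_contra hc
    push Not at hc
    exact hne (le_antisymm h hc)
  have h1 : D + Finsupp.single P 1 ≤ E := fun Q => by
    have := h Q
    rw [Finsupp.add_apply, Finsupp.single_apply]
    split_ifs with e
    · subst e; omega
    · omega
  have h2 := degree_le_degree h1
  rw [map_add, degree_single_eq, hd] at h2
  omega

theorem exists_eq_add_single {E : Divisor K M} (hE : 0 ≤ E) (hne : E ≠ 0) :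
    ∃ (P : Place K M) (E' : Divisor K M), 0 ≤ E' ∧ E = E' + Finsupp.single P 1 := by
  classical
  obtain ⟨P, hP⟩ : ∃ P, E P ≠ 0 := by
    by_contra h
    push Not at h
    exact hne (Finsupp.ext h)
  refine ⟨P, E - Finsupp.single P 1, fun Q => ?_, (sub_add_cancel _ _).symm⟩
  have := hE Q
  rw [Finsupp.sub_apply, Finsupp.single_apply]
  simp only [Finsupp.coe_zero, Pi.zero_apply] at this ⊢
  split_ifs with e
  · subst e; omega
  · omega

end General

variable {L L' F F' : Type u} [Field L] [Field L'] [Field F] [Field F'] [Algebra L L'] [Algebra L F]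
  [Algebra L' F'] [Algebra F F'] [Algebra L F'] [IsScalarTower L L' F'] [IsScalarTower L F F']
variable [IsFunctionField L F] [IsAlgClosed L] [IsFunctionField L' F'] [IsAlgClosed L']
  [IsConstExt L L' F F']
variable (v : LPlace L L')

/-- Multiplying by a rational function clears the pole bound at a place over `R`. -/
theorem redW_single_le (D : Divisor L F) (P : Place L' F') :
    redW v (secW L' F' D (Finsupp.single P 1)) ≤
      riemannRochSpace (D - Finsupp.single (redPlace v P) 1) := by
  classical
  rintro r ⟨s, hs, hsg, rfl⟩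
  set R : Place L F := redPlace v P with hR
  obtain ⟨t, ht0, htR⟩ : ∃ t : F, t ≠ 0 ∧ R.ord t = D R := by
    obtain ⟨π, hπ0, hπ⟩ := exists_ord_eq_one R
    exact ⟨π ^ D R, zpow_ne_zero _ hπ0, by rw [R.ord_zpow, hπ, mul_one]⟩
  set r := (gauss F F' v).value ⟨s, hsg⟩
  have hrD : r ∈ riemannRochSpace D := redW_secW_le v D
    (fun Q => by simp only [Finsupp.single_apply, Finsupp.coe_zero, Pi.zero_apply]; split_ifs <;> omega)
    ⟨s, hs, hsg, rfl⟩
  rw [mem_riemannRochSpace_iff]
  intro Q
  by_cases hr0 : r = 0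
  · exact Or.inl hr0
  have hQ := ((mem_riemannRochSpace_iff.mp hrD) Q).resolve_left hr0
  refine Or.inr ?_
  rw [Finsupp.sub_apply, Finsupp.single_apply]
  split_ifs with hQR
  swap
  · omega
  subst hQR
  let n := Module.finrank L (riemannRochSpace D)
  have htb : ∀ i, t * (Module.finBasis L (riemannRochSpace D) i : F) ∈ R.toValuationSubring := fun i => by
    rcases eq_or_ne (Module.finBasis L (riemannRochSpace D) i : F) 0 with h0 | h0
    · rw [h0, mul_zero]; exact zero_mem _
    rw [Fermat.Agent.FF.mem_iff_ord_nonneg, R.ord_mul ht0 h0, htR]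
    have := ((mem_riemannRochSpace_iff.mp (Module.finBasis L (riemannRochSpace D) i).2) R).resolve_left h0
    omega
  have hE : (0 : Divisor L' F') ≤ Finsupp.single P 1 := fun Q => by
    simp only [Finsupp.single_apply, Finsupp.coe_zero, Pi.zero_apply]; split_ifs <;> omega
  have hred : r ∈ redW v (secW L' F' D (Finsupp.single P 1)) := ⟨s, hs, hsg, rfl⟩
  rw [redW_eq_map v _ (linearIndependent_basis D) (secW_le_range_combi' D hE)] at hred
  obtain ⟨y, ⟨x, hx, hxy⟩, hyr⟩ := hred
  rw [combi, Fintype.linearCombination_apply] at hyr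
  choose hm hv' using fun i => value_evalAt_eq v P (htb i)
  choose hin hv'' using hv'
  let a : Fin n → P.toValuationSubring := fun i => ⟨_, hm i⟩
  have hsum : ((∑ i, algebraMap L' P.toValuationSubring (x i) * a i : P.toValuationSubring) : F') =
      algebraMap F F' t * combi' L' F' (fun i => (Module.finBasis L (riemannRochSpace D) i : F)) x := by
    rw [combi', Fintype.linearCombination_apply, Finset.mul_sum]
    push_cast
    refine Finset.sum_congr rfl fun i _ => ?_
    rw [Algebra.smul_def]
    show algebraMap L' F' (x i) * algebraMap F F' (t * (Module.finBasis L (riemannRochSpace D) i : F)) = _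
    rw [map_mul]
    ring
  have hz : evalAt P (∑ i, algebraMap L' P.toValuationSubring (x i) * a i) = 0 := by
    rw [evalAt_eq_zero_iff, ← IsLocalRing.residue_eq_zero_iff,
      residue_eq_zero_iff P (SetLike.coe_mem _), mem_ordGE]
    rw [hsum]
    by_cases h0 : combi' L' F' (fun i => (Module.finBasis L (riemannRochSpace D) i : F)) x = 0
    · exact Or.inl (by rw [h0, mul_zero])
    refine Or.inr ?_
    have h1 := ((mem_riemannRochSpace_iff.mp hx) P).resolve_left h0
    rw [Finsupp.sub_apply, Finsupp.single_eq_same] at h1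
    rw [P.ord_mul (by simpa using ht0) h0]
    by_cases hP : P ∈ Set.range (extPlace L' F' : Place L F → Place L' F')
    · obtain ⟨R', rfl⟩ := hP
      rw [hR, redPlace_extPlace] at htR
      rw [extDivisor_apply_extPlace] at h1
      rw [ord_extPlace_algebraMap]
      omega
    · rw [extDivisor_apply_of_notMem_range L' F' D hP] at h1
      rw [ord_algebraMap_eq_zero_of_notMem_range L' F' hP]
      omega
  have hmemc : ∀ i, evalAt P (a i) ∈ v.ring := hin
  have hz' : ∑ i, (⟨x i, (hxy i).choose⟩ : v.ring) * ⟨_, hmemc i⟩ = 0 := by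
    apply Subtype.ext
    push_cast
    rw [← hz, map_sum]
    exact Finset.sum_congr rfl fun i _ => by rw [map_mul, AlgHom.commutes]; rfl
  have hR0 : ∑ i, algebraMap L R.toValuationSubring (y i) * ⟨_, htb i⟩ ∈
      IsLocalRing.maximalIdeal R.toValuationSubring := by
    rw [← evalAt_eq_zero_iff, map_sum, ← map_zero v.value, ← hz', map_sum]
    refine Finset.sum_congr rfl fun i _ => ?_
    rw [map_mul, AlgHom.commutes, map_mul, (hxy i).choose_spec]
    exact congrArg (y i * ·) (hv'' i).symm
  rw [← IsLocalRing.residue_eq_zero_iff, residue_eq_zero_iff R (SetLike.coe_mem _)] at hR0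
  have e : ((∑ i, algebraMap L R.toValuationSubring (y i) * ⟨_, htb i⟩ :
      R.toValuationSubring) : F) = t * r := by
    rw [← hyr, Finset.mul_sum]
    push_cast
    refine Finset.sum_congr rfl fun i _ => ?_
    rw [Algebra.smul_def]
    show algebraMap L F (y i) * (t * (Module.finBasis L (riemannRochSpace D) i : F)) = _
    ring
  rw [e] at hR0
  have := le_ord_of_mem_ordGE R hR0 (mul_ne_zero ht0 hr0)
  rw [R.ord_mul ht0 hr0, htR] at this
  omega

theorem redW_eq_of_le {D : Divisor L F} {E : Divisor L' F'} (hE : 0 ≤ E)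
    (hd : 2 * (genusFF L F : ℤ) + Divisor.degree E ≤ Divisor.degree D)
    (hle : redW v (secW L' F' D E) ≤ riemannRochSpace (D - redDiv F F' v E)) :
    redW v (secW L' F' D E) = riemannRochSpace (D - redDiv F F' v E) := by
  refine Submodule.eq_of_le_of_finrank_le hle (le_of_eq ?_)
  rw [finrank_redW_secW v D hE]
  have h1 := finrank_riemannRochSpace_of_lt_degree (D := D - redDiv F F' v E)
    (by rw [map_sub, degree_redDiv]; omega)
  have h2 := finrank_riemannRochSpace_of_lt_degree (D := extDivisor L' F' D - E)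
    (by rw [map_sub, degree_extDivisor, genusFF_eq L F L' F']; omega)
  rw [map_sub, degree_redDiv] at h1
  rw [map_sub, degree_extDivisor, genusFF_eq L F L' F'] at h2
  unfold secW
  omega

theorem redW_secW_eq (e : ℕ) : ∀ (D : Divisor L F) (E : Divisor L' F'), 0 ≤ E →
    Divisor.degree E = e → (6 * (genusFF L F : ℤ) + 6) * (e + 1) ≤ Divisor.degree D →
    redW v (secW L' F' D E) = riemannRochSpace (D - redDiv F F' v E) := by
  classical
  induction e with
  | zero =>
    intro D E hE he hd
    obtain rfl : E = 0 := (eq_of_le_of_degree_eq hE (by simp [he])).symm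
    refine redW_eq_of_le v le_rfl (by simp; push_cast at hd; omega) ?_
    rw [map_zero, sub_zero]
    exact redW_secW_le v D le_rfl
  | succ e ih =>
    intro D E hE he hd
    obtain ⟨P, E', hE', rfl⟩ := exists_eq_add_single hE (fun h => by
      rw [h, map_zero] at he; omega)
    have he' : Divisor.degree E' = e := by
      rw [map_add, degree_single_eq] at he
      push_cast at he
      omega
    obtain ⟨R₀⟩ : Nonempty (Place L F) := inferInstance
    set g : ℤ := (genusFF L F : ℤ) with hg
    set M : Divisor L F := Finsupp.single R₀ (2 * g + 2) with hM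
    set D₁ := D - M with hD₁
    have hdM : Divisor.degree M = 2 * g + 2 := by rw [hM, degree_single_eq]
    have hd₁ : (6 * g + 6) * (e + 1) ≤ Divisor.degree D₁ := by
      rw [hD₁, map_sub, hdM]
      push_cast at hd
      nlinarith
    have h1 := ih D₁ E' hE' he' hd₁
    have hP : (0 : Divisor L' F') ≤ Finsupp.single P 1 := fun Q => by
      simp only [Finsupp.single_apply, Finsupp.coe_zero, Pi.zero_apply]; split_ifs <;> omega
    have h2 : redW v (secW L' F' M (Finsupp.single P 1)) =
        riemannRochSpace (M - redDiv F F' v (Finsupp.single P 1)) := by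
      refine redW_eq_of_le v hP (by rw [hdM, degree_single_eq]; omega) ?_
      rw [redDiv_single]
      exact redW_single_le v M P
    have hle : riemannRochSpace (D - redDiv F F' v (E' + Finsupp.single P 1)) ≤
        redW v (secW L' F' D (E' + Finsupp.single P 1)) := by
      rw [map_add, show D - (redDiv F F' v E' + redDiv F F' v (Finsupp.single P 1)) =
        (M - redDiv F F' v (Finsupp.single P 1)) + (D₁ - redDiv F F' v E') by rw [hD₁]; abel]
      have h0 : (e : ℤ) ≤ (6 * g + 6) * e := le_mul_of_one_le_left (by omega) (by omega)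
      rw [mul_add, mul_one] at hd₁
      refine riemannRochSpace_add_le ?_ ?_ ?_
      · rw [map_sub, hdM, degree_redDiv, degree_single_eq]; omega
      · rw [map_sub, map_sub, hdM, degree_redDiv, degree_redDiv, degree_single_eq, he']; omega
      rw [← h1, ← h2]
      rintro _ ⟨s, hs, hsg, rfl⟩ _ ⟨u, hu, hug, rfl⟩
      refine ⟨s * u, ?_, mul_mem hsg hug, map_mul (gauss F F' v).value ⟨s, hsg⟩ ⟨u, hug⟩⟩
      rw [secW, mem_riemannRochSpace_iff]
      intro Q
      by_cases h0 : s * u = 0
      · exact Or.inl h0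
      obtain ⟨hs0, hu0⟩ := mul_ne_zero_iff.mp h0
      have a1 := ((mem_riemannRochSpace_iff.mp hs) Q).resolve_left hs0
      have a2 := ((mem_riemannRochSpace_iff.mp hu) Q).resolve_left hu0
      refine Or.inr ?_
      rw [Q.ord_mul hs0 hu0, hD₁] at *
      simp only [map_sub, Finsupp.sub_apply, Finsupp.add_apply] at a1 a2 ⊢
      omega
    have : FiniteDimensional L ↥(redW v (secW L' F' D (E' + Finsupp.single P 1))) :=
      Submodule.finiteDimensional_of_le (redW_secW_le v D hE)
    refine (Submodule.eq_of_le_of_finrank_le hle (le_of_eq ?_)).symm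
    rw [finrank_redW_secW v D hE]
    have h0 : (e : ℤ) ≤ (6 * g + 6) * e := le_mul_of_one_le_left (by omega) (by omega)
    push_cast at hd he
    rw [mul_add, mul_add, mul_one] at hd
    have h3 := finrank_riemannRochSpace_of_lt_degree
      (D := D - redDiv F F' v (E' + Finsupp.single P 1))
      (by rw [map_sub, degree_redDiv, he]; omega)
    have h4 := finrank_riemannRochSpace_of_lt_degree
      (D := extDivisor L' F' D - (E' + Finsupp.single P 1))
      (by rw [map_sub, degree_extDivisor, genusFF_eq L F L' F', he]; omega)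
    rw [map_sub, degree_redDiv, he] at h3
    rw [map_sub, degree_extDivisor, genusFF_eq L F L' F', he] at h4
    unfold secW
    omega

theorem redW_secW_le_sub (D : Divisor L F) {E : Divisor L' F'} (hE : 0 ≤ E) :
    redW v (secW L' F' D E) ≤ riemannRochSpace (D - redDiv F F' v E) := by
  classical
  rintro r ⟨s, hs, hsg, rfl⟩
  set r := (gauss F F' v).value ⟨s, hsg⟩
  rw [mem_riemannRochSpace_iff]
  intro R
  by_cases hr0 : r = 0
  · exact Or.inl hr0
  obtain ⟨e, he⟩ : ∃ e : ℕ, Divisor.degree E = e :=
    ⟨_, (Int.toNat_of_nonneg (by simpa using degree_le_degree hE)).symm⟩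
  set g : ℤ := (genusFF L F : ℤ)
  set N : ℤ := max (2 * g) ((6 * g + 6) * (e + 1) - Divisor.degree D)
  set M₀ : Divisor L F := Finsupp.single R N
  obtain ⟨m, hm0, hm, hmR⟩ := exists_mem_riemannRochSpace_ord_eq (A := M₀)
    (by rw [degree_single_eq]; exact le_max_left _ _) {R}
  have hmem : m * r ∈ riemannRochSpace (D + M₀ - redDiv F F' v E) := by
    rw [← redW_secW_eq v e (D + M₀) E hE he (by
      change (6 * g + 6) * ((e : ℤ) + 1) ≤ _
      rw [map_add, degree_single_eq]
      have := le_max_right (2 * g) ((6 * g + 6) * (e + 1) - Divisor.degree D)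
      omega)]
    have hmg : algebraMap F F' m ∈ (gauss F F' v).ring := (gauss F F' v).algebraMap_mem m
    refine ⟨algebraMap F F' m * s, ?_, mul_mem hmg hsg, ?_⟩
    · rw [secW, mem_riemannRochSpace_iff]
      intro Q
      by_cases h0 : algebraMap F F' m * s = 0
      · exact Or.inl h0
      obtain ⟨h1, h2⟩ := mul_ne_zero_iff.mp h0
      have a1 := ((mem_riemannRochSpace_iff.mp
        (algebraMap_mem_riemannRochSpace_extDivisor (L := L') (F' := F') hm)) Q).resolve_left h1
      have a2 := ((mem_riemannRochSpace_iff.mp hs) Q).resolve_left h2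
      refine Or.inr ?_
      rw [Q.ord_mul h1 h2]
      simp only [map_add, Finsupp.sub_apply, Finsupp.add_apply] at a1 a2 ⊢
      omega
    · rw [show (⟨algebraMap F F' m * s, _⟩ : (gauss F F' v).ring) = ⟨_, hmg⟩ * ⟨s, hsg⟩ from rfl,
        map_mul]
      exact congrArg (· * r) ((gauss F F' v).value_algebraMap m)
  have h1 := ((mem_riemannRochSpace_iff.mp hmem) R).resolve_left (mul_ne_zero hm0 hr0)
  refine Or.inr ?_
  rw [R.ord_mul hm0 hr0, hmR R (Finset.mem_singleton_self R)] at h1
  simp only [Finsupp.sub_apply, Finsupp.add_apply] at h1 ⊢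
  omega

/-- Reduction of the divisor of a primitive tensor. -/
theorem redDiv_dv_gMap {σ : v.kring (K := L) ⊗[L] F} (hσ : gRed F v σ ≠ 0) :
    redDiv F F' v (dv L' (gMap F F' v σ)) = dv L (gRed F v σ) := by
  have hbound : ∀ τ : v.kring (K := L) ⊗[L] F, ∃ D : Divisor L F, 0 ≤ D ∧
      gMap F F' v τ ∈ riemannRochSpace (extDivisor L' F' D) := by
    intro τ
    induction τ using TensorProduct.induction_on with
    | zero => exact ⟨0, le_rfl, by rw [map_zero]; exact zero_mem _⟩
    | tmul c f =>
      refine ⟨poleDivisor L f, poleDivisor_nonneg f, ?_⟩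
      rw [gMap_tmul, ← Algebra.smul_def]
      refine Submodule.smul_mem _ _ (algebraMap_mem_riemannRochSpace_extDivisor ?_)
      rw [mem_riemannRochSpace_iff]
      exact fun Q => Or.inr (by rw [poleDivisor_apply]; omega)
    | add a b ha hb =>
      obtain ⟨D, hD, ha⟩ := ha
      obtain ⟨D', hD', hb⟩ := hb
      refine ⟨D + D', add_nonneg hD hD', ?_⟩
      rw [map_add (gMap F F' v)]
      rw [riemannRochSpace_extDivisor] at ha hb ⊢
      exact add_mem
        (Submodule.span_mono (Set.image_mono (riemannRochSpace_mono (le_add_of_nonneg_right hD'))) ha)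
        (Submodule.span_mono (Set.image_mono (riemannRochSpace_mono (le_add_of_nonneg_left hD))) hb)
  obtain ⟨D, -, hD⟩ := hbound σ
  set s := gMap F F' v σ with hs
  have hs0 : s ≠ 0 := (map_ne_zero_iff _ (gMap_injective v)).mpr fun h => hσ (by rw [h, map_zero])
  have hA : 0 ≤ dv L' s + extDivisor L' F' D := fun Q => by
    have := ((mem_riemannRochSpace_iff.mp hD) Q).resolve_left hs0
    simp only [Finsupp.add_apply, dv_apply, Finsupp.coe_zero, Pi.zero_apply]
    omega
  have hmem : gRed F v σ ∈ redW v (secW L' F' D (dv L' s + extDivisor L' F' D)) := by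
    refine ⟨s, ?_, gauss_gMap_mem v σ, gauss_value_gMap v σ⟩
    rw [secW, mem_riemannRochSpace_iff]
    intro Q
    refine Or.inr ?_
    simp only [Finsupp.sub_apply, Finsupp.add_apply, dv_apply]
    omega
  have h1 := redW_secW_le_sub v D hA hmem
  rw [map_add, redDiv_extDivisor] at h1
  refine eq_of_le_of_degree_eq (fun Q => ?_) (by rw [degree_redDiv, degree_dv, degree_dv])
  have h2 := ((mem_riemannRochSpace_iff.mp h1) Q).resolve_left hσ
  simp only [Finsupp.sub_apply, Finsupp.add_apply] at h2
  rw [dv_apply]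
  omega

/-- Reduction of principal divisors. -/
theorem redDiv_dv {g : F'} {r : F} (h : GUnit v g r) : redDiv F F' v (dv L' g) = dv L r := by
  obtain ⟨hr, hm, hv⟩ := h
  obtain ⟨σ, τ, hτ, he⟩ := id hm
  rw [gauss_value_eq v hm hτ he] at hv
  have hσ : gRed F v σ ≠ 0 := fun h0 => hr (by rw [← hv, h0, zero_div])
  have hτ0 : gMap F F' v τ ≠ 0 :=
    (map_ne_zero_iff _ (gMap_injective v)).mpr fun h0 => hτ (by rw [h0, map_zero])
  have hσ0 : gMap F F' v σ ≠ 0 :=
    (map_ne_zero_iff _ (gMap_injective v)).mpr fun h0 => hσ (by rw [h0, map_zero])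
  rw [show g = gMap F F' v σ * (gMap F F' v τ)⁻¹ by
      rw [← he, mul_assoc, mul_inv_cancel₀ hτ0, mul_one],
    dv_mul hσ0 (inv_ne_zero hτ0), dv_inv, map_add, map_neg, redDiv_dv_gMap v hσ,
    redDiv_dv_gMap v hτ, ← hv, div_eq_mul_inv, dv_mul hσ (inv_ne_zero hτ), dv_inv]

theorem redDiv_mem_principal {E : Divisor L' F'}
    (hE : E ∈ Divisor.principal (K := L') (F := F')) :
    redDiv F F' v E ∈ Divisor.principal (K := L) (F := F) := by
  obtain ⟨g, hg, hgE⟩ := hE
  obtain ⟨c, g', r, hc, hu, rfl⟩ := exists_const_mul_gunit (F := F) v hg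
  rw [show E = dv L' (algebraMap L' F' c * g') from Finsupp.ext fun P => hgE P,
    dv_mul (by simpa using hc) hu.ne_zero, dv_algebraMap, zero_add, redDiv_dv v hu]
  exact dv_mem_principal hu.1

/-- A Gauss unit without zeros and poles over `R` has unit value at every place over `R`. -/
theorem value_evalAt_of_gunit {g : F'} {r : F} (h : GUnit v g r) (P : Place L' F')
    (h0 : ∀ P' : Place L' F', redPlace (F := F) v P' = redPlace v P → P'.ord g = 0) :
    ∃ (hP : g ∈ P.toValuationSubring) (hv : evalAt P ⟨g, hP⟩ ∈ v.ring)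
      (hR : r ∈ (redPlace (F := F) v P).toValuationSubring),
      v.value ⟨_, hv⟩ = evalAt (redPlace v P) ⟨r, hR⟩ ∧ v.value ⟨_, hv⟩ ≠ 0 := by
  classical
  set R : Place L F := redPlace v P with hR_def
  have hzero : ∀ g' : F', (∀ P' : Place L' F', redPlace (F := F) v P' = R → 0 ≤ P'.ord g') →
      0 ≤ redDiv F F' v (dv L' g') R ∧
        (redDiv F F' v (dv L' g') R = 0 → ∀ P' : Place L' F', redPlace (F := F) v P' = R →
          P'.ord g' = 0) := by
    intro g' hpos
    have e : redDiv F F' v (dv L' g') R =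
        ∑ P' ∈ (dv L' g').support.filter fun P' => redPlace v P' = R, P'.ord g' := by
      show Finsupp.mapDomain (redPlace v) (dv L' g') R = _
      rw [Finsupp.mapDomain, Finsupp.sum, Finsupp.finsetSum_apply, Finset.sum_filter]
      exact Finset.sum_congr rfl fun P' _ => by rw [Finsupp.single_apply]; rfl
    refine ⟨e ▸ Finset.sum_nonneg fun P' hP' => hpos P' (Finset.mem_filter.mp hP').2,
      fun hz P' hP' => ?_⟩
    by_contra hne
    have := (Finset.sum_eq_zero_iff_of_nonneg fun Q hQ => hpos Q (Finset.mem_filter.mp hQ).2).mp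
      (e.symm.trans hz) P' (Finset.mem_filter.mpr ⟨Finsupp.mem_support_iff.mpr hne, hP'⟩)
    exact hne this
  have hr0 := h.1
  have hRr : R.ord r = 0 := by
    have e := DFunLike.congr_fun (redDiv_dv v h) R
    rw [dv_apply] at e
    rw [← e]
    show Finsupp.mapDomain (redPlace v) (dv L' g) R = 0
    rw [Finsupp.mapDomain, Finsupp.sum, Finsupp.finsetSum_apply]
    refine Finset.sum_eq_zero fun P' _ => ?_
    rw [Finsupp.single_apply]
    split_ifs with hP'
    · exact h0 P' hP'
    · rfl
  have hP : g ∈ P.toValuationSubring :=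
    (Fermat.Agent.FF.mem_iff_ord_nonneg P).mpr (h0 P rfl).ge
  have hR : r ∈ R.toValuationSubring := (Fermat.Agent.FF.mem_iff_ord_nonneg R).mpr hRr.ge
  set ζ := evalAt P ⟨g, hP⟩ with hζ
  have hord : ∀ c : L', ∀ P' : Place L' F', redPlace (F := F) v P' = R →
      0 ≤ P'.ord (g - algebraMap L' F' c) := fun c P' hP' =>
    (Fermat.Agent.FF.mem_iff_ord_nonneg P').mp (sub_mem
      ((Fermat.Agent.FF.mem_iff_ord_nonneg P').mpr (h0 P' hP').ge) (P'.algebraMap_mem' c))
  have hPz : g - algebraMap L' F' ζ = 0 ∨ 0 < P.ord (g - algebraMap L' F' ζ) := by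
    have hm : g - algebraMap L' F' ζ ∈ P.toValuationSubring := sub_mem hP (P.algebraMap_mem' ζ)
    have hh : g - algebraMap L' F' ζ ∈ ordGE P 1 := by
      rw [← residue_eq_zero_iff P hm, IsLocalRing.residue_eq_zero_iff, ← evalAt_eq_zero_iff,
        show (⟨_, hm⟩ : P.toValuationSubring) = ⟨g, hP⟩ - algebraMap L' _ ζ from rfl, map_sub,
        AlgHom.commutes]
      exact sub_self ζ
    rcases (mem_ordGE P).mp hh with h' | h'
    · exact Or.inl h'
    · exact Or.inr h'
  obtain ⟨hr, hm, hmv⟩ := h
  have hv : ζ ∈ v.ring := by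
    by_contra hv
    obtain ⟨hi, hiv⟩ := v.value_inv_eq_zero hv
    obtain ⟨hi', hiv'⟩ := gauss_algebraMap_const (F := F) (F' := F') v hi
    have hζ0 : ζ ≠ 0 := fun h' => hv (by rw [h']; exact zero_mem _)
    have hi0 : algebraMap L' F' ζ⁻¹ ≠ 0 := by simpa using hζ0
    have hu : GUnit v (g * algebraMap L' F' ζ⁻¹ - 1) (-1 : F) := by
      refine ⟨neg_ne_zero.mpr one_ne_zero, sub_mem (mul_mem hm hi') (one_mem _), ?_⟩
      rw [show (⟨g * algebraMap L' F' ζ⁻¹ - 1, _⟩ : (gauss F F' v).ring) =
        ⟨g, hm⟩ * ⟨_, hi'⟩ - 1 from rfl, map_sub, map_mul, map_one, hiv', hiv, map_zero, mul_zero,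
        zero_sub]
    have hne := hu.ne_zero
    have e : g * algebraMap L' F' ζ⁻¹ - 1 = algebraMap L' F' ζ⁻¹ * (g - algebraMap L' F' ζ) := by
      rw [mul_sub, ← map_mul, inv_mul_cancel₀ hζ0, map_one, mul_comm]
    have hgz : g - algebraMap L' F' ζ ≠ 0 := fun h' => hne (by rw [e, h', mul_zero])
    have hord' : ∀ P' : Place L' F', P'.ord (g * algebraMap L' F' ζ⁻¹ - 1) =
        P'.ord (g - algebraMap L' F' ζ) := fun P' => by
      rw [e, P'.ord_mul hi0 hgz, ord_algebraMap, zero_add]
    have hd := DFunLike.congr_fun (redDiv_dv v hu) R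
    rw [show (-1 : F) = algebraMap L F (-1) by simp, dv_algebraMap] at hd
    have := (hzero _ fun P' hP' => hord' P' ▸ hord ζ P' hP').2 hd P rfl
    rw [hord'] at this
    rcases hPz with h' | h'
    · exact hgz h'
    · omega
  have hval : v.value ⟨ζ, hv⟩ = evalAt R ⟨r, hR⟩ := by
    obtain ⟨hi', hiv'⟩ := gauss_algebraMap_const (F := F) (F' := F') v hv
    set c := v.value ⟨ζ, hv⟩ with hc
    have hmem : g - algebraMap L' F' ζ ∈ (gauss F F' v).ring := sub_mem hm hi'
    have hvv : (gauss F F' v).value ⟨_, hmem⟩ = r - algebraMap L F c := by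
      rw [show (⟨_, hmem⟩ : (gauss F F' v).ring) = ⟨g, hm⟩ - ⟨_, hi'⟩ from rfl, map_sub, hmv, hiv']
    have hmR : r - algebraMap L F c ∈ R.toValuationSubring := sub_mem hR (R.algebraMap_mem' c)
    have hkey : r - algebraMap L F c ∈ ordGE R 1 := by
      rcases eq_or_ne (r - algebraMap L F c) 0 with h' | h'
      · rw [h']; exact zero_mem _
      have hu : GUnit v (g - algebraMap L' F' ζ) (r - algebraMap L F c) := ⟨h', hmem, hvv⟩
      have hd := DFunLike.congr_fun (redDiv_dv v hu) R
      rw [dv_apply] at hd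
      obtain ⟨h1, h2⟩ := hzero _ (fun P' hP' => hord ζ P' hP')
      refine mem_ordGE_of_le R ?_
      by_contra hlt
      have h3 : redDiv F F' v (dv L' (g - algebraMap L' F' ζ)) R = 0 := by omega
      have := h2 h3 P rfl
      rcases hPz with h'' | h''
      · exact hu.ne_zero h''
      · omega
    rw [← residue_eq_zero_iff R hmR, IsLocalRing.residue_eq_zero_iff, ← evalAt_eq_zero_iff,
      show (⟨_, hmR⟩ : R.toValuationSubring) = ⟨r, hR⟩ - algebraMap L _ c from rfl, map_sub,
      AlgHom.commutes, sub_eq_zero] at hkey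
    exact hkey.symm
  refine ⟨hP, hv, hR, hval, ?_⟩
  rw [hval, evalAt_ne_zero_iff, ← R.adicValuation_coe_eq_one_iff]
  show R.adicValuation r = 1
  rw [R.adicValuation_eq_exp_neg_ord hr0, hRr, neg_zero, WithZero.exp_zero]

end Fermat.Agent.AV
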