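import Fermat.Agent.AV.Red.Gauss

/-!
# Reduction of Riemann–Roch spaces
-/

set_option autoImplicit false
set_option linter.unusedSectionVars false

noncomputable section

open scoped TensorProduct
open AlgebraicCurve Fermat.Agent.FF Fermat.Agent.FF.ConstExt

universe u

namespace Fermat.Agent.AV

section General

variable {K M : Type u} [Field K] [Field M] [Algebra K M] [IsFunctionField K M]

variable (K) in
/-- The divisor of an element, zero for the zero element. -/
def dv (f : M) : Divisor K M :=
  Finsupp.ofSupportFinite (fun P => P.ord f) (finite_ord_ne_zero f)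

theorem dv_apply (f : M) (P : Place K M) : dv K f P = P.ord f := rfl

theorem dv_mul {f g : M} (hf : f ≠ 0) (hg : g ≠ 0) : dv K (f * g) = dv K f + dv K g :=
  Finsupp.ext fun P => P.ord_mul hf hg

theorem dv_inv (f : M) : dv K f⁻¹ = -dv K f := Finsupp.ext fun P => P.ord_inv f

theorem degree_dv (f : M) : Divisor.degree (dv K f) = 0 := by
  rcases eq_or_ne f 0 with rfl | hf
  · rw [show dv K (0 : M) = 0 from Finsupp.ext fun P => P.ord_zero, map_zero]
  obtain ⟨D, hD, hd⟩ := HasPrincipalDivisors.exists_divisor (K := K) f hf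
  rwa [show dv K f = D from Finsupp.ext fun P => (hD P).symm]

theorem dv_mem_principal {f : M} (hf : f ≠ 0) :
    dv K f ∈ Divisor.principal (K := K) (F := M) :=
  ⟨f, hf, fun _ => rfl⟩

theorem dv_algebraMap (c : K) : dv K (algebraMap K M c) = 0 :=
  Finsupp.ext fun P => ord_algebraMap P c

theorem degree_single_eq [IsAlgClosed K] (v : Place K M) (n : ℤ) :
    Divisor.degree (Finsupp.single v n) = n :=
  degree_single_eq_self v n

end General

variable {L L' F F' : Type u} [Field L] [Field L'] [Field F] [Field F'] [Algebra L L'] [Algebra L F]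
  [Algebra L' F'] [Algebra F F'] [Algebra L F'] [IsScalarTower L L' F'] [IsScalarTower L F F']
variable [IsFunctionField L F] [IsAlgClosed L] [IsFunctionField L' F'] [IsAlgClosed L']
  [IsConstExt L L' F F']
variable (v : LPlace L L')

variable (F F') in
/-- Reduction of divisors. -/
def redDiv : Divisor L' F' →+ Divisor L F :=
  Finsupp.mapDomain.addMonoidHom (redPlace v)

theorem redDiv_single (P : Place L' F') (n : ℤ) :
    redDiv F F' v (Finsupp.single P n) = Finsupp.single (redPlace v P) n :=
  Finsupp.mapDomain_single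

theorem redDiv_extDivisor (D : Divisor L F) : redDiv F F' v (extDivisor L' F' D) = D := by
  induction D using Finsupp.induction with
  | zero => simp
  | single_add R n D _ _ ih =>
    rw [map_add, map_add, ih, extDivisor_single, redDiv_single, redPlace_extPlace]

theorem degree_redDiv (E : Divisor L' F') :
    Divisor.degree (redDiv F F' v E) = Divisor.degree E := by
  induction E using Finsupp.induction with
  | zero => simp
  | single_add P n E _ _ ih =>
    rw [map_add, map_add, map_add, ih, redDiv_single, degree_single_eq, degree_single_eq]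

theorem redDiv_nonneg {E : Divisor L' F'} (h : 0 ≤ E) : 0 ≤ redDiv F F' v E := by
  classical
  intro R
  show 0 ≤ Finsupp.mapDomain (redPlace v) E R
  rw [Finsupp.mapDomain, Finsupp.sum, Finsupp.finsetSum_apply]
  refine Finset.sum_nonneg fun P _ => ?_
  rw [Finsupp.single_apply]
  split_ifs
  · exact h P
  · exact le_rfl

/-- Reductions of the Gauss integral elements of a subspace. -/
def redW (W : Submodule L' F') : Submodule L F where
  carrier := {r | ∃ s ∈ W, ∃ h : s ∈ (gauss F F' v).ring, (gauss F F' v).value ⟨s, h⟩ = r}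
  zero_mem' := ⟨0, zero_mem W, zero_mem _, map_zero _⟩
  add_mem' := by
    rintro a b ⟨s, hs, h, rfl⟩ ⟨t, ht, h', rfl⟩
    exact ⟨s + t, add_mem hs ht, add_mem h h', map_add (gauss F F' v).value ⟨s, h⟩ ⟨t, h'⟩⟩
  smul_mem' := by
    rintro c a ⟨s, hs, h, rfl⟩
    obtain ⟨hc, e⟩ := gauss_algebraMap_const (F := F) (F' := F') v (v.algebraMap_mem c)
    refine ⟨algebraMap L L' c • s, W.smul_mem _ hs, by
      rw [Algebra.smul_def]; exact mul_mem hc h, ?_⟩
    simp only [Algebra.smul_def]
    rw [show (⟨algebraMap L' F' (algebraMap L L' c) * s, _⟩ : (gauss F F' v).ring) =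
      ⟨_, hc⟩ * ⟨s, h⟩ from rfl, map_mul, e, v.value_algebraMap]

theorem mem_redW {W : Submodule L' F'} {r : F} : r ∈ redW (F := F) v W ↔
    ∃ s ∈ W, ∃ h : s ∈ (gauss F F' v).ring, (gauss F F' v).value ⟨s, h⟩ = r := Iff.rfl

theorem redW_mono {W W' : Submodule L' F'} (h : W ≤ W') : redW (F := F) v W ≤ redW v W' :=
  fun _ ⟨s, hs, h', e⟩ => ⟨s, h hs, h', e⟩

section Coordinates

variable {n : ℕ} (b : Fin n → F)

/-- Combinations with constant coefficients. -/
def combi : (Fin n → L) →ₗ[L] F := Fintype.linearCombination L b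

variable (L' F') in
/-- Combinations with extended coefficients. -/
def combi' : (Fin n → L') →ₗ[L'] F' := Fintype.linearCombination L' fun i => algebraMap F F' (b i)

theorem combi'_injective (hb : LinearIndependent L b) :
    Function.Injective (combi' L' F' b) :=
  (linearIndependent_algebraMap (L := L') (F' := F') hb).fintypeLinearCombination_injective

theorem combi'_mem_and_value {x : Fin n → L'} {y : Fin n → L}
    (hx : ∀ i, ∃ h : x i ∈ v.ring, v.value ⟨x i, h⟩ = y i) :
    ∃ h : combi' L' F' b x ∈ (gauss F F' v).ring,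
      (gauss F F' v).value ⟨_, h⟩ = combi b y := by
  have e : combi' L' F' b x =
      gMap F F' v (∑ i, (⟨x i, (hx i).choose⟩ : v.kring (K := L)) ⊗ₜ b i) := by
    rw [combi', Fintype.linearCombination_apply, map_sum]
    exact Finset.sum_congr rfl fun i _ => by rw [gMap_tmul, Algebra.smul_def]
  refine ⟨e ▸ gauss_gMap_mem v _, ?_⟩
  rw [show (⟨_, e ▸ gauss_gMap_mem v _⟩ : (gauss F F' v).ring) = ⟨_, gauss_gMap_mem v _⟩ from
    Subtype.ext e, gauss_value_gMap, combi, Fintype.linearCombination_apply, map_sum]
  refine Finset.sum_congr rfl fun i _ => ?_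
  rw [gRed_tmul, Algebra.smul_def]
  exact congrArg (algebraMap L F · * b i) (hx i).choose_spec

theorem redW_eq_map (hb : LinearIndependent L b) {W : Submodule L' F'}
    (hW : W ≤ LinearMap.range (combi' L' F' b)) :
    redW v W = (v.redSpace (W.comap (combi' L' F' b))).map (combi b) := by
  ext r
  constructor
  · rintro ⟨s, hs, h, rfl⟩
    obtain ⟨x, rfl⟩ := hW hs
    suffices hint : ∀ i, x i ∈ v.ring by
      refine ⟨fun i => v.value ⟨x i, hint i⟩, ⟨x, hs, fun i => ⟨hint i, rfl⟩⟩, ?_⟩
      obtain ⟨_, e⟩ := combi'_mem_and_value (F' := F') v b (x := x)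
        (fun i => ⟨hint i, rfl⟩)
      exact e.symm
    intro i
    by_contra hi
    obtain ⟨j, hj0, hj⟩ := v.exists_max (x := x) fun h0 => hi (by rw [h0]; exact zero_mem _)
    have hjn : x j ∉ v.ring := fun hm => hi (by
      rw [← div_mul_cancel₀ (x i) hj0]; exact mul_mem (hj i) hm)
    obtain ⟨hjm, hjv⟩ := v.value_inv_eq_zero hjn
    obtain ⟨h1, e1⟩ := combi'_mem_and_value (F' := F') v b (x := (x j)⁻¹ • x)
      (y := fun i => v.value ⟨x i / x j, hj i⟩) fun i => by
        refine ⟨by simp only [Pi.smul_apply, smul_eq_mul, ← div_eq_inv_mul]; exact hj i, ?_⟩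
        exact congrArg v.value (Subtype.ext (by simp [div_eq_inv_mul]))
    obtain ⟨h2, e2⟩ := gauss_algebraMap_const (F := F) (F' := F') v hjm
    have h3 : (⟨_, h1⟩ : (gauss F F' v).ring) = ⟨_, h2⟩ * ⟨_, h⟩ :=
      Subtype.ext ((map_smul (combi' L' F' b) _ x).trans (Algebra.smul_def _ _))
    rw [h3, map_mul, e2, hjv, map_zero, zero_mul] at e1
    have h4 : (fun i => v.value ⟨x i / x j, hj i⟩) = 0 :=
      Fintype.linearIndependent_iff.mp hb _ (by
        simpa [combi, Fintype.linearCombination_apply] using e1.symm) |> funext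
    have h5 := congrFun h4 j
    simp only [show (⟨x j / x j, hj j⟩ : v.ring) = 1 from Subtype.ext (div_self hj0), map_one,
      Pi.zero_apply] at h5
    exact one_ne_zero h5
  · rintro ⟨y, ⟨x, hx, hxy⟩, rfl⟩
    obtain ⟨h, e⟩ := combi'_mem_and_value (F' := F') v b hxy
    exact ⟨_, hx, h, e⟩

theorem finrank_redW_of_le (hb : LinearIndependent L b) {W : Submodule L' F'}
    (hW : W ≤ LinearMap.range (combi' L' F' b)) :
    Module.finrank L (redW (F := F) v W) = Module.finrank L' W := by
  have hi : Function.Injective (combi b) := hb.fintypeLinearCombination_injective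
  have hi' := combi'_injective (L' := L') (F' := F') b hb
  rw [redW_eq_map v b hb hW, ← (Submodule.equivMapOfInjective _ hi _).finrank_eq,
    v.finrank_redSpace, (Submodule.equivMapOfInjective _ hi' _).finrank_eq,
    Submodule.map_comap_eq_of_le hW]

end Coordinates

variable (L' F') in
/-- The sections of `D` vanishing along `E`. -/
abbrev secW (D : Divisor L F) (E : Divisor L' F') : Submodule L' F' :=
  riemannRochSpace (extDivisor L' F' D - E)

theorem secW_le_range_combi' (D : Divisor L F) {E : Divisor L' F'} (hE : 0 ≤ E) :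
    secW L' F' D E ≤ LinearMap.range
      (combi' L' F' fun i => ((Module.finBasis L (riemannRochSpace D)) i : F)) := by
  intro s hs
  have hs' : s ∈ riemannRochSpace (extDivisor L' F' D) :=
    riemannRochSpace_mono (sub_le_self _ hE) hs
  rw [riemannRochSpace_extDivisor] at hs'
  refine Submodule.span_le.mpr ?_ hs'
  rintro _ ⟨f, hf, rfl⟩
  set b := Module.finBasis L (riemannRochSpace D)
  refine ⟨fun i => algebraMap L L' (b.repr ⟨f, hf⟩ i), ?_⟩
  rw [combi', Fintype.linearCombination_apply]
  conv_rhs => rw [show f = ((⟨f, hf⟩ : riemannRochSpace D) : F) from rfl, ← b.sum_repr ⟨f, hf⟩]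
  simp only [Submodule.coe_sum, Submodule.coe_smul, map_sum]
  refine Finset.sum_congr rfl fun i _ => ?_
  rw [Algebra.smul_def, Algebra.smul_def, map_mul, ← IsScalarTower.algebraMap_apply L L' F',
    ← IsScalarTower.algebraMap_apply L F F']

theorem linearIndependent_basis (D : Divisor L F) :
    LinearIndependent L fun i => ((Module.finBasis L (riemannRochSpace D)) i : F) :=
  (Module.finBasis L (riemannRochSpace D)).linearIndependent.map' (riemannRochSpace D).subtype
    (Submodule.ker_subtype _)

theorem finrank_redW_secW (D : Divisor L F) {E : Divisor L' F'} (hE : 0 ≤ E) :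
    Module.finrank L (redW (F := F) v (secW L' F' D E)) = Module.finrank L' (secW L' F' D E) :=
  finrank_redW_of_le v _ (linearIndependent_basis D) (secW_le_range_combi' D hE)

theorem redW_secW_le (D : Divisor L F) {E : Divisor L' F'} (hE : 0 ≤ E) :
    redW v (secW L' F' D E) ≤ riemannRochSpace D := by
  rw [redW_eq_map v _ (linearIndependent_basis D) (secW_le_range_combi' D hE)]
  rintro _ ⟨y, -, rfl⟩
  rw [combi, Fintype.linearCombination_apply]
  exact Submodule.sum_mem _ fun i _ => Submodule.smul_mem _ _ (Subtype.coe_prop _)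

end Fermat.Agent.AV
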