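import Fermat.Agent.AV.Red.Linear
import Fermat.Agent.FF.ConstExt.Genus
import Mathlib.RingTheory.Flat.Basic
import Mathlib.LinearAlgebra.TensorProduct.Basis

/-!
# Reduction of places and the Gauss place of a constant field extension

For a place `v` of the constants `L'` with values in `L`, the places of `F'/L'` reduce to places of
`F/L`, and `v` extends to a place `gauss v` of `F'` with values in `F`.
-/

set_option autoImplicit false
set_option linter.unusedSectionVars false

noncomputable section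

open scoped TensorProduct
open AlgebraicCurve Fermat.Agent.FF Fermat.Agent.FF.ConstExt

universe u

namespace Fermat.Agent.AV

variable {L L' F F' : Type u} [Field L] [Field L'] [Field F] [Field F'] [Algebra L L'] [Algebra L F]
  [Algebra L' F'] [Algebra F F'] [Algebra L F'] [IsScalarTower L L' F'] [IsScalarTower L F F']

namespace LPlace

variable (v : LPlace L L')

theorem value_ne_zero_inv_mem {c : L'} (h : c ∈ v.ring) (hv : v.value ⟨c, h⟩ ≠ 0) :
    ∃ h' : c⁻¹ ∈ v.ring, v.value ⟨c⁻¹, h'⟩ = (v.value ⟨c, h⟩)⁻¹ := by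
  obtain ⟨y, hy⟩ := (v.isLocalHom _ hv).exists_right_inv
  have e : c⁻¹ = y := inv_eq_of_mul_eq_one_right (congrArg Subtype.val hy)
  refine ⟨e ▸ y.2, eq_inv_of_mul_eq_one_right ?_⟩
  rw [show (⟨c⁻¹, e ▸ y.2⟩ : v.ring) = y from Subtype.ext e, ← map_mul, hy, map_one]

theorem value_inv_eq_zero {c : L'} (h : c ∉ v.ring) :
    ∃ h' : c⁻¹ ∈ v.ring, v.value ⟨c⁻¹, h'⟩ = 0 := by
  refine ⟨(v.ring.mem_or_inv_mem c).resolve_left h, ?_⟩
  by_contra hne
  obtain ⟨h', -⟩ := v.value_ne_zero_inv_mem _ hne
  rw [inv_inv] at h'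
  exact h h'

end LPlace

section Eval

variable {K M : Type u} [Field K] [Field M] [Algebra K M] [RationalPlaces K M] (P : Place K M)

theorem evalAt_congr {a b : M} (ha : a ∈ P.toValuationSubring) (hb : b ∈ P.toValuationSubring)
    (e : a = b) : evalAt P ⟨a, ha⟩ = evalAt P ⟨b, hb⟩ :=
  congrArg _ (Subtype.ext e)

theorem evalAt_inv {a : M} (ha : a ∈ P.toValuationSubring) (hne : evalAt P ⟨a, ha⟩ ≠ 0) :
    ∃ h : a⁻¹ ∈ P.toValuationSubring, evalAt P ⟨a⁻¹, h⟩ = (evalAt P ⟨a, ha⟩)⁻¹ := by
  obtain ⟨y, hy⟩ := ((evalAt_ne_zero_iff P _).mp hne).exists_right_inv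
  have e : a⁻¹ = y := inv_eq_of_mul_eq_one_right (congrArg Subtype.val hy)
  refine ⟨e ▸ y.2, eq_inv_of_mul_eq_one_right ?_⟩
  rw [evalAt_congr P _ y.2 e, ← map_mul, hy, map_one]

theorem evalAt_algebraMap (c : K) (h : algebraMap K M c ∈ P.toValuationSubring) :
    evalAt P ⟨_, h⟩ = c :=
  (evalAt P).commutes c

end Eval

section Red

variable [IsFunctionField L F] [IsAlgClosed L] [IsFunctionField L' F'] [IsAlgClosed L']
  [IsConstExt L L' F F']
variable (v : LPlace L L')

/-- Valuation ring of the reduction of a place. -/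
def redRing (P : Place L' F') : ValuationSubring F where
  carrier := {z | ∃ h : algebraMap F F' z ∈ P.toValuationSubring, evalAt P ⟨_, h⟩ ∈ v.ring}
  zero_mem' := ⟨by rw [map_zero]; exact zero_mem _, by
    convert zero_mem v.ring
    rw [show (⟨algebraMap F F' 0, _⟩ : P.toValuationSubring) = 0 from Subtype.ext (map_zero _),
      map_zero]⟩
  one_mem' := ⟨by rw [map_one]; exact one_mem _, by
    convert one_mem v.ring
    rw [show (⟨algebraMap F F' 1, _⟩ : P.toValuationSubring) = 1 from Subtype.ext (map_one _),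
      map_one]⟩
  neg_mem' := by
    rintro a ⟨ha, ha'⟩
    refine ⟨by rw [map_neg]; exact neg_mem ha, ?_⟩
    convert neg_mem ha'
    exact (congrArg _ (Subtype.ext (map_neg _ _))).trans (map_neg (evalAt P) ⟨_, ha⟩)
  add_mem' := by
    rintro a b ⟨ha, ha'⟩ ⟨hb, hb'⟩
    refine ⟨by rw [map_add]; exact add_mem ha hb, ?_⟩
    convert add_mem ha' hb'
    exact (congrArg _ (Subtype.ext (map_add _ _ _))).trans (map_add (evalAt P) ⟨_, ha⟩ ⟨_, hb⟩)
  mul_mem' := by
    rintro a b ⟨ha, ha'⟩ ⟨hb, hb'⟩
    refine ⟨by rw [map_mul]; exact mul_mem ha hb, ?_⟩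
    convert mul_mem ha' hb'
    exact (congrArg _ (Subtype.ext (map_mul _ _ _))).trans (map_mul (evalAt P) ⟨_, ha⟩ ⟨_, hb⟩)
  mem_or_inv_mem' := by
    intro z
    rcases P.toValuationSubring.mem_or_inv_mem (algebraMap F F' z) with hm | hm
    · by_cases hv : evalAt P ⟨_, hm⟩ ∈ v.ring
      · exact Or.inl ⟨hm, hv⟩
      · obtain ⟨h', -⟩ := v.value_inv_eq_zero hv
        obtain ⟨hi, he⟩ := evalAt_inv P hm fun h => hv (by rw [h]; exact zero_mem _)
        rw [← he] at h'
        exact Or.inr ⟨by rw [map_inv₀]; exact hi,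
          by rwa [evalAt_congr P _ hi (map_inv₀ _ _)]⟩
    · by_cases hv : evalAt P ⟨_, hm⟩ ∈ v.ring
      · exact Or.inr ⟨by rw [map_inv₀]; exact hm, by rwa [evalAt_congr P _ hm (map_inv₀ _ _)]⟩
      · obtain ⟨h', -⟩ := v.value_inv_eq_zero hv
        obtain ⟨hi, he⟩ := evalAt_inv P hm fun h => hv (by rw [h]; exact zero_mem _)
        rw [← he] at h'
        exact Or.inl ⟨by rw [← inv_inv (algebraMap F F' z)]; exact hi,
          by rwa [evalAt_congr P _ hi (inv_inv _).symm]⟩

theorem algebraMap_mem_redRing (P : Place L' F') (c : L) : algebraMap L F c ∈ redRing v P := by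
  have e : algebraMap F F' (algebraMap L F c) = algebraMap L' F' (algebraMap L L' c) := by
    rw [← IsScalarTower.algebraMap_apply, ← IsScalarTower.algebraMap_apply]
  refine ⟨e ▸ P.algebraMap_mem' _, ?_⟩
  convert v.algebraMap_mem c using 1
  exact (congrArg _ (Subtype.ext e)).trans ((evalAt P).commutes _)

/-- The composite of the value of a place and `v`. -/
def redValue (P : Place L' F') : redRing (F := F) v P →+* L :=
  v.value.comp
    { toFun := fun z => ⟨evalAt P ⟨_, z.2.choose⟩, z.2.choose_spec⟩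
      map_one' := Subtype.ext ((evalAt_congr P _ (one_mem _) (map_one _)).trans (map_one _))
      map_mul' := fun x y => Subtype.ext ((evalAt_congr P _
        (mul_mem x.2.choose y.2.choose) (map_mul (algebraMap F F') x.1 y.1)).trans
        (map_mul (evalAt P) ⟨_, x.2.choose⟩ ⟨_, y.2.choose⟩))
      map_zero' := Subtype.ext ((evalAt_congr P _ (zero_mem _) (map_zero _)).trans (map_zero _))
      map_add' := fun x y => Subtype.ext ((evalAt_congr P _
        (add_mem x.2.choose y.2.choose) (map_add (algebraMap F F') x.1 y.1)).trans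
        (map_add (evalAt P) ⟨_, x.2.choose⟩ ⟨_, y.2.choose⟩)) }

theorem redValue_apply (P : Place L' F') {z : F} (hz : z ∈ redRing v P)
    (h : algebraMap F F' z ∈ P.toValuationSubring) (h' : evalAt P ⟨_, h⟩ ∈ v.ring) :
    redValue v P ⟨z, hz⟩ = v.value ⟨_, h'⟩ := rfl

theorem redValue_algebraMap (P : Place L' F') (c : L) :
    redValue v P ⟨algebraMap L F c, algebraMap_mem_redRing v P c⟩ = c := by
  have e : algebraMap F F' (algebraMap L F c) = algebraMap L' F' (algebraMap L L' c) := by
    rw [← IsScalarTower.algebraMap_apply, ← IsScalarTower.algebraMap_apply]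
  refine Eq.trans ?_ (v.value_algebraMap c)
  exact congrArg v.value (Subtype.ext ((evalAt_congr P _ (P.algebraMap_mem' _) e).trans
    (evalAt_algebraMap P _ _)))

theorem redRing_ne_top (P : Place L' F') : redRing (F := F) v P ≠ ⊤ := by
  intro htop
  obtain ⟨x, hx, -⟩ := IsFunctionField.exists_transcendental (K := L) (F := F)
  have hm : ∀ z : F, z ∈ redRing v P := fun z => by rw [htop]; trivial
  let φ : F →+* L := (redValue v P).comp ((RingHom.id F).codRestrict (redRing v P).toSubring hm)
  have hc : ∀ c : L, φ (algebraMap L F c) = c := fun c => redValue_algebraMap v P c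
  have he : x = algebraMap L F (φ x) := φ.injective (hc (φ x)).symm
  exact hx (he ▸ isAlgebraic_algebraMap _)

/-- The reduction of a place. -/
def redPlace (P : Place L' F') : Place L F :=
  placeOfValuationSubring (redRing v P) (algebraMap_mem_redRing v P) (redRing_ne_top v P)

theorem redPlace_toValuationSubring (P : Place L' F') :
    (redPlace v P : Place L F).toValuationSubring = redRing v P := rfl

theorem value_evalAt_eq (P : Place L' F') {z : F}
    (hz : z ∈ (redPlace v P : Place L F).toValuationSubring) :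
    ∃ (h : algebraMap F F' z ∈ P.toValuationSubring) (h' : evalAt P ⟨_, h⟩ ∈ v.ring),
      v.value ⟨_, h'⟩ = evalAt (redPlace v P) ⟨z, hz⟩ := by
  have hz' : z ∈ redRing v P := hz
  obtain ⟨h, h'⟩ := hz'
  refine ⟨h, h', ?_⟩
  set R : Place L F := redPlace v P
  set c := evalAt R ⟨z, hz⟩
  have hd : (⟨z, hz⟩ - algebraMap L R.toValuationSubring c : R.toValuationSubring) ∈
      IsLocalRing.maximalIdeal R.toValuationSubring := by
    rw [← evalAt_eq_zero_iff, map_sub, AlgHom.commutes]
    exact sub_self c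
  by_contra hne
  refine (IsLocalRing.mem_maximalIdeal _).mp hd ?_
  have hm : z - algebraMap L F c ∈ redRing v P := sub_mem hz (algebraMap_mem_redRing v P c)
  have hval : redValue v P ⟨_, hm⟩ = v.value ⟨_, h'⟩ - c := by
    rw [show (⟨_, hm⟩ : redRing v P) = ⟨z, hz⟩ - ⟨_, algebraMap_mem_redRing v P c⟩ from rfl,
      map_sub, redValue_algebraMap]
    rfl
  obtain ⟨hm1, hm2⟩ := hm
  have hv0 : v.value ⟨_, hm2⟩ ≠ 0 := hval ▸ sub_ne_zero.mpr hne
  obtain ⟨hi, -⟩ := v.value_ne_zero_inv_mem hm2 hv0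
  have hne0 : evalAt P ⟨_, hm1⟩ ≠ 0 := fun h0 => hv0 (by
    rw [← map_zero v.value]; exact congrArg v.value (Subtype.ext h0))
  obtain ⟨hi', he'⟩ := evalAt_inv P hm1 hne0
  rw [← he'] at hi
  have hinv : (z - algebraMap L F c)⁻¹ ∈ redRing v P :=
    ⟨by rw [map_inv₀]; exact hi', by rwa [evalAt_congr P _ hi' (map_inv₀ _ _)]⟩
  refine isUnit_iff_exists_inv.mpr ⟨⟨_, hinv⟩, Subtype.ext (mul_inv_cancel₀ ?_)⟩
  intro h0
  refine hne0 ((evalAt_congr P _ (zero_mem _) ?_).trans (map_zero _))
  rw [show z - algebraMap L F c = 0 from h0, map_zero]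

theorem evalAt_extPlace (R : Place L F) {z : F} (hz : z ∈ R.toValuationSubring) :
    ∃ h : algebraMap F F' z ∈ (extPlace L' F' R).toValuationSubring,
      evalAt (extPlace L' F' R) ⟨_, h⟩ = algebraMap L L' (evalAt R ⟨z, hz⟩) := by
  have h : algebraMap F F' z ∈ (extPlace L' F' R).toValuationSubring :=
    (algebraMap_mem_extPlace_iff R z).mpr hz
  refine ⟨h, ?_⟩
  set c := evalAt R ⟨z, hz⟩
  have hz0 : z - algebraMap L F c ∈ ordGE R 1 := by
    have hmem : z - algebraMap L F c ∈ R.toValuationSubring := sub_mem hz (R.algebraMap_mem' c)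
    rw [← residue_eq_zero_iff R hmem, IsLocalRing.residue_eq_zero_iff, ← evalAt_eq_zero_iff,
      show (⟨_, hmem⟩ : R.toValuationSubring) = ⟨z, hz⟩ - algebraMap L _ c from rfl, map_sub,
      AlgHom.commutes]
    exact sub_self c
  have e : algebraMap F F' (z - algebraMap L F c) =
      algebraMap F F' z - algebraMap L' F' (algebraMap L L' c) := by
    rw [map_sub, ← IsScalarTower.algebraMap_apply, ← IsScalarTower.algebraMap_apply]
  have h1 : algebraMap F F' z - algebraMap L' F' (algebraMap L L' c) ∈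
      ordGE (extPlace L' F' R) 1 := by
    rw [← e, mem_ordGE]
    rcases (mem_ordGE R).mp hz0 with h0 | h0
    · exact Or.inl (by rw [h0, map_zero])
    · exact Or.inr (by rwa [ord_extPlace_algebraMap])
  have hmem' : algebraMap F F' z - algebraMap L' F' (algebraMap L L' c) ∈
      (extPlace L' F' R).toValuationSubring := sub_mem h (Place.algebraMap_mem' _ _)
  rw [← residue_eq_zero_iff _ hmem', IsLocalRing.residue_eq_zero_iff, ← evalAt_eq_zero_iff,
    show (⟨_, hmem'⟩ : (extPlace L' F' R).toValuationSubring) =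
      ⟨_, h⟩ - algebraMap L' _ (algebraMap L L' c) from rfl, map_sub, AlgHom.commutes] at h1
  exact sub_eq_zero.mp h1

theorem redPlace_extPlace (R : Place L F) : redPlace v (extPlace L' F' R) = R := by
  refine (ext_of_le R fun z hz => ?_).symm
  obtain ⟨h, he⟩ := evalAt_extPlace (L' := L') (F' := F') R hz
  exact ⟨h, he ▸ v.algebraMap_mem _⟩

end Red

end Fermat.Agent.AV
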