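import Fermat.Agent.AV.Specialize
import Fermat.Agent.AV.Red.Place
import Fermat.Agent.FF.ConstExt.AutExt

/-!
# The Gauss place of a constant field extension
-/

set_option autoImplicit false
set_option linter.unusedSectionVars false

noncomputable section

open scoped TensorProduct
open AlgebraicCurve Fermat.Agent.FF Fermat.Agent.FF.ConstExt

universe u

namespace Fermat.Agent.AV

variable {L L' F F' : Type u} [Field L] [Field L'] [Field F] [Field F'] [Algebra L L'] [Algebra L F]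
  [Algebra L' F'] [Algebra F F'] [Algebra L F'] [IsScalarTower L L' F'] [IsScalarTower L F F']

variable (v : LPlace L L')

variable (F F') in
/-- Integral tensors inside the constant extension. -/
def gMap : v.kring (K := L) ⊗[L] F →ₐ[L] F' :=
  Algebra.TensorProduct.lift ((IsScalarTower.toAlgHom L L' F').comp (v.kring (K := L)).val)
    (IsScalarTower.toAlgHom L F F') fun _ _ => Commute.all _ _

variable (F) in
/-- Reduction of integral tensors. -/
def gRed : v.kring (K := L) ⊗[L] F →ₐ[L] F :=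
  Algebra.TensorProduct.lift ((Algebra.ofId L F).comp (v.valueHom (K := L))) (AlgHom.id L F)
    fun _ _ => Commute.all _ _

theorem gMap_tmul (c : v.kring (K := L)) (f : F) :
    gMap F F' v (c ⊗ₜ f) = algebraMap L' F' (c : L') * algebraMap F F' f := by
  simp [gMap]

theorem gRed_tmul (c : v.kring (K := L)) (f : F) :
    gRed F v (c ⊗ₜ f) = algebraMap L F (v.valueHom c) * f := by
  simp [gRed]

theorem gMap_injective [IsConstExt L L' F F'] : Function.Injective (gMap F F' v) := by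
  have e : (gMap F F' v : v.kring (K := L) ⊗[L] F →ₐ[L] F') =
      ((mulMap L L' F F').restrictScalars L).comp
        (Algebra.TensorProduct.map (v.kring (K := L)).val (AlgHom.id L F)) := by
    refine Algebra.TensorProduct.ext' fun c f => ?_
    rw [gMap_tmul, AlgHom.comp_apply, Algebra.TensorProduct.map_tmul]
    exact (mulMap_tmul (K := L) (c : L') f).symm
  rw [e]
  exact (IsConstExt.mulMap_injective (K := L) (L := L') (F := F) (F' := F')).comp
    (Module.Flat.rTensor_preserves_injective_linearMap (v.kring (K := L)).val.toLinearMap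
      Subtype.val_injective)

/-- Every element is a constant multiple of a primitive tensor. -/
theorem exists_smul_primitive (a : L' ⊗[L] F) (ha : a ≠ 0) :
    ∃ (c : L') (σ : v.kring (K := L) ⊗[L] F), c ≠ 0 ∧ gRed F v σ ≠ 0 ∧
      mulMap L L' F F' a = algebraMap L' F' c * gMap F F' v σ := by
  classical
  let b := Module.Free.chooseBasis L F
  let r := TensorProduct.equivFinsuppOfBasisRight b a
  have hr : a = ∑ i ∈ r.support, r i ⊗ₜ b i := by
    rw [← (TensorProduct.equivFinsuppOfBasisRight b).symm_apply_apply a,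
      TensorProduct.equivFinsuppOfBasisRight_symm_apply]
    rfl
  have hx : (fun i : r.support => r i.1) ≠ 0 := by
    intro h
    refine ha ?_
    rw [hr]
    exact Finset.sum_eq_zero fun i hi => absurd (congrFun h ⟨i, hi⟩) (Finsupp.mem_support_iff.mp hi)
  obtain ⟨j, hj0, hj⟩ := v.exists_max hx
  refine ⟨r j.1, ∑ i : r.support, (⟨r i.1 / r j.1, hj i⟩ : v.kring (K := L)) ⊗ₜ b i.1, hj0, ?_, ?_⟩
  · intro h
    simp only [map_sum, gRed_tmul, ← Algebra.smul_def] at h
    have h1 := Fintype.linearIndependent_iff.mp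
      (b.linearIndependent.comp (fun i : r.support => i.1) Subtype.val_injective) _ h j
    have e : (⟨r j.1 / r j.1, hj j⟩ : v.kring (K := L)) = 1 := Subtype.ext (div_self hj0)
    rw [e, map_one] at h1
    exact one_ne_zero h1
  · conv_lhs => rw [hr]
    rw [map_sum, map_sum, Finset.mul_sum, ← Finset.sum_coe_sort r.support]
    refine Finset.sum_congr rfl fun i _ => ?_
    rw [gMap_tmul, mulMap_tmul, ← mul_assoc, ← map_mul, mul_div_cancel₀ _ hj0]

section

variable [IsConstExt L L' F F']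

/-- Every nonzero element is a constant multiple of a quotient of primitive tensors. -/
theorem exists_smul_unit {g : F'} (hg : g ≠ 0) :
    ∃ (c : L') (σ τ : v.kring (K := L) ⊗[L] F), c ≠ 0 ∧ gRed F v σ ≠ 0 ∧ gRed F v τ ≠ 0 ∧
      g * gMap F F' v τ = algebraMap L' F' c * gMap F F' v σ := by
  obtain ⟨a, b, hb, rfl⟩ := exists_mulMap_div (K := L) (L := L') (F := F) g
  have ha : a ≠ 0 := fun h => hg (by rw [h, map_zero, zero_div])
  obtain ⟨c, σ, hc, hσ, hac⟩ := exists_smul_primitive v (F' := F') a ha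
  obtain ⟨d, τ, hd, hτ, hbd⟩ := exists_smul_primitive v (F' := F') b hb
  refine ⟨c / d, σ, τ, div_ne_zero hc hd, hσ, hτ, ?_⟩
  rw [hac, hbd, map_div₀]
  have hτ0 : gMap F F' v τ ≠ 0 :=
    (map_ne_zero_iff _ (gMap_injective v)).mpr fun h => hτ (by rw [h, map_zero])
  field_simp

/-- Valuation ring of the Gauss place. -/
def gaussRing : ValuationSubring F' where
  carrier := {g | ∃ σ τ : v.kring (K := L) ⊗[L] F,
    gRed F v τ ≠ 0 ∧ g * gMap F F' v τ = gMap F F' v σ}
  zero_mem' := ⟨0, 1, by simp, by simp⟩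
  one_mem' := ⟨1, 1, by simp, by simp⟩
  neg_mem' := by
    rintro g ⟨σ, τ, hτ, h⟩
    exact ⟨-σ, τ, hτ, by rw [map_neg, neg_mul, h]⟩
  add_mem' := by
    rintro g g' ⟨σ, τ, hτ, h⟩ ⟨σ', τ', hτ', h'⟩
    refine ⟨σ * τ' + σ' * τ, τ * τ', by rw [map_mul]; exact mul_ne_zero hτ hτ', ?_⟩
    rw [map_mul, map_add, map_mul, map_mul, ← h, ← h']
    ring
  mul_mem' := by
    rintro g g' ⟨σ, τ, hτ, h⟩ ⟨σ', τ', hτ', h'⟩
    refine ⟨σ * σ', τ * τ', by rw [map_mul]; exact mul_ne_zero hτ hτ', ?_⟩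
    rw [map_mul, map_mul, ← h, ← h']
    ring
  mem_or_inv_mem' := by
    intro g
    rcases eq_or_ne g 0 with rfl | hg
    · exact Or.inl ⟨0, 1, by simp, by simp⟩
    obtain ⟨c, σ, τ, hc, hσ, hτ, h⟩ := exists_smul_unit (F := F) v hg
    rcases v.ring.mem_or_inv_mem c with hm | hm
    · exact Or.inl ⟨(⟨c, hm⟩ : v.kring (K := L)) ⊗ₜ 1 * σ, τ, hτ, by
        rw [h, map_mul, gMap_tmul, map_one, mul_one]⟩
    · refine Or.inr ⟨(⟨c⁻¹, hm⟩ : v.kring (K := L)) ⊗ₜ 1 * τ, σ, hσ, ?_⟩
      rw [map_mul, gMap_tmul, map_one, mul_one]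
      have hc' : algebraMap L' F' c ≠ 0 := by simpa using hc
      rw [show algebraMap L' F' ((⟨c⁻¹, hm⟩ : v.kring (K := L)) : L') = (algebraMap L' F' c)⁻¹
        from map_inv₀ _ _]
      field_simp
      linear_combination -h

theorem mem_gaussRing {g : F'} : g ∈ gaussRing (F := F) v ↔ ∃ σ τ : v.kring (K := L) ⊗[L] F,
    gRed F v τ ≠ 0 ∧ g * gMap F F' v τ = gMap F F' v σ := Iff.rfl

/-- The value at the Gauss place, on representatives. -/
def gaussValueFun (g : gaussRing (F := F) (F' := F') v) : F :=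
  gRed F v g.2.choose / gRed F v g.2.choose_spec.choose

theorem gaussValueFun_eq (g : gaussRing (F := F) (F' := F') v)
    {σ τ : v.kring (K := L) ⊗[L] F} (hτ : gRed F v τ ≠ 0)
    (h : (g : F') * gMap F F' v τ = gMap F F' v σ) :
    gaussValueFun v g = gRed F v σ / gRed F v τ := by
  obtain ⟨hτ', h'⟩ := g.2.choose_spec.choose_spec
  have key : ∀ σ' τ' : v.kring (K := L) ⊗[L] F, (g : F') * gMap F F' v τ' = gMap F F' v σ' →
      σ' * τ = σ * τ' := fun σ' τ' e => gMap_injective v (F := F) (F' := F') (by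
    rw [map_mul, map_mul, ← h, ← e]; ring)
  rw [gaussValueFun, div_eq_div_iff hτ' hτ, ← map_mul, ← map_mul]
  exact congrArg _ (key _ _ h')

variable (F F') in
/-- The extension of a place of the constants with residue field the function field. -/
def gauss : LPlace F F' where
  ring := gaussRing (F := F) v
  algebraMap_mem f := ⟨1 ⊗ₜ f, 1, by simp, by simp [gMap_tmul]⟩
  value :=
    { toFun := gaussValueFun v
      map_one' := by rw [gaussValueFun_eq v 1 (σ := 1) (τ := 1) (by simp) (by simp)]; simp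
      map_mul' := fun g g' => by
        obtain ⟨σ, τ, hτ, h⟩ := g.2
        obtain ⟨σ', τ', hτ', h'⟩ := g'.2
        rw [gaussValueFun_eq v g hτ h, gaussValueFun_eq v g' hτ' h',
          gaussValueFun_eq v (g * g') (σ := σ * σ') (τ := τ * τ')
            (by rw [map_mul]; exact mul_ne_zero hτ hτ')
            (by push_cast; rw [map_mul, map_mul, ← h, ← h']; ring)]
        rw [map_mul, map_mul, mul_div_mul_comm]
      map_zero' := by rw [gaussValueFun_eq v 0 (σ := 0) (τ := 1) (by simp) (by simp)]; simp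
      map_add' := fun g g' => by
        obtain ⟨σ, τ, hτ, h⟩ := g.2
        obtain ⟨σ', τ', hτ', h'⟩ := g'.2
        rw [gaussValueFun_eq v g hτ h, gaussValueFun_eq v g' hτ' h',
          gaussValueFun_eq v (g + g') (σ := σ * τ' + σ' * τ) (τ := τ * τ')
            (by rw [map_mul]; exact mul_ne_zero hτ hτ')
            (by push_cast; rw [map_mul, map_add, map_mul, map_mul, ← h, ← h']; ring)]
        rw [map_add, map_mul, map_mul, map_mul]
        field_simp }
  value_algebraMap f := by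
    show gaussValueFun v _ = f
    rw [gaussValueFun_eq v _ (σ := 1 ⊗ₜ f) (τ := 1) (by simp) (by simp [gMap_tmul])]
    simp [gRed_tmul]
  isLocalHom g hg := by
    obtain ⟨σ, τ, hτ, h⟩ := g.2
    change gaussValueFun v g ≠ 0 at hg
    rw [gaussValueFun_eq v g hτ h] at hg
    have hσ : gRed F v σ ≠ 0 := fun h0 => hg (by rw [h0, zero_div])
    have hg0 : (g : F') ≠ 0 := by
      intro h0
      rw [h0, zero_mul] at h
      exact hσ (by rw [(map_eq_zero_iff _ (gMap_injective v)).mp h.symm, map_zero])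
    refine isUnit_iff_exists_inv.mpr ⟨⟨(g : F')⁻¹, τ, σ, hσ, ?_⟩, Subtype.ext (mul_inv_cancel₀ hg0)⟩
    rw [← h, ← mul_assoc, inv_mul_cancel₀ hg0, one_mul]

theorem gauss_gMap_mem (σ : v.kring (K := L) ⊗[L] F) : gMap F F' v σ ∈ (gauss F F' v).ring :=
  ⟨σ, 1, by simp, by simp⟩

theorem gauss_value_eq {g : F'} (hg : g ∈ (gauss F F' v).ring)
    {σ τ : v.kring (K := L) ⊗[L] F} (hτ : gRed F v τ ≠ 0)
    (h : g * gMap F F' v τ = gMap F F' v σ) :
    (gauss F F' v).value ⟨g, hg⟩ = gRed F v σ / gRed F v τ :=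
  gaussValueFun_eq v ⟨g, hg⟩ hτ h

theorem gauss_value_gMap (σ : v.kring (K := L) ⊗[L] F) :
    (gauss F F' v).value ⟨_, gauss_gMap_mem v σ⟩ = gRed F v σ := by
  rw [gauss_value_eq v _ (σ := σ) (τ := 1) (by simp) (by simp)]
  simp

theorem gauss_algebraMap_const {c : L'} (hc : c ∈ v.ring) :
    ∃ h : algebraMap L' F' c ∈ (gauss F F' v).ring,
      (gauss F F' v).value ⟨_, h⟩ = algebraMap L F (v.value ⟨c, hc⟩) := by
  have e : gMap F F' v ((⟨c, hc⟩ : v.kring (K := L)) ⊗ₜ 1) = algebraMap L' F' c := by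
    rw [gMap_tmul, map_one, mul_one]
  refine ⟨e ▸ gauss_gMap_mem v _, ?_⟩
  rw [show (⟨algebraMap L' F' c, e ▸ gauss_gMap_mem v _⟩ : (gauss F F' v).ring) =
    ⟨_, gauss_gMap_mem v ((⟨c, hc⟩ : v.kring (K := L)) ⊗ₜ 1)⟩ from Subtype.ext e.symm,
    gauss_value_gMap, gRed_tmul, mul_one]
  rfl

/-- `g` is a unit at the Gauss place with reduction `r`. -/
def GUnit (g : F') (r : F) : Prop :=
  r ≠ 0 ∧ ∃ h : g ∈ (gauss F F' v).ring, (gauss F F' v).value ⟨g, h⟩ = r

/-- Every nonzero element is a constant times a unit of the Gauss place. -/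
theorem exists_const_mul_gunit {g : F'} (hg : g ≠ 0) :
    ∃ (c : L') (g' : F') (r : F), c ≠ 0 ∧ GUnit v g' r ∧ g = algebraMap L' F' c * g' := by
  obtain ⟨c, σ, τ, hc, hσ, hτ, h⟩ := exists_smul_unit (F := F) v hg
  have hτ0 : gMap F F' v τ ≠ 0 :=
    (map_ne_zero_iff _ (gMap_injective v)).mpr fun h => hτ (by rw [h, map_zero])
  have hmem : gMap F F' v σ / gMap F F' v τ ∈ (gauss F F' v).ring :=
    ⟨σ, τ, hτ, div_mul_cancel₀ _ hτ0⟩
  refine ⟨c, gMap F F' v σ / gMap F F' v τ, _, hc, ⟨?_, hmem, rfl⟩, ?_⟩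
  · rw [gauss_value_eq v hmem hτ (div_mul_cancel₀ _ hτ0)]
    exact div_ne_zero hσ hτ
  · rw [← mul_div_assoc, eq_div_iff hτ0, h]

variable {v} in
theorem GUnit.ne_zero {g : F'} {r : F} (h : GUnit v g r) : g ≠ 0 := by
  rintro rfl
  obtain ⟨hr, hm, hv⟩ := h
  exact hr (hv.symm.trans (map_zero _))

variable {v} in
theorem GUnit.mul {g g' : F'} {r r' : F} (h : GUnit v g r) (h' : GUnit v g' r') :
    GUnit v (g * g') (r * r') := by
  obtain ⟨hr, hm, hv⟩ := h
  obtain ⟨hr', hm', hv'⟩ := h'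
  exact ⟨mul_ne_zero hr hr', mul_mem hm hm', by
    rw [← hv, ← hv', ← map_mul]; rfl⟩

variable {v} in
theorem GUnit.inv {g : F'} {r : F} (h : GUnit v g r) : GUnit v g⁻¹ r⁻¹ := by
  obtain ⟨hr, hm, hv⟩ := h
  obtain ⟨y, hy⟩ := ((gauss F F' v).isLocalHom ⟨g, hm⟩ (hv ▸ hr)).exists_right_inv
  have e : g⁻¹ = y := inv_eq_of_mul_eq_one_right (congrArg Subtype.val hy)
  refine ⟨inv_ne_zero hr, e ▸ y.2, eq_inv_of_mul_eq_one_right ?_⟩
  rw [← hv, show (⟨g⁻¹, e ▸ y.2⟩ : (gauss F F' v).ring) = y from Subtype.ext e, ← map_mul, hy,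
    map_one]

theorem gunit_algebraMap {f : F} (hf : f ≠ 0) : GUnit (F' := F') v (algebraMap F F' f) f :=
  ⟨hf, (gauss F F' v).algebraMap_mem f, (gauss F F' v).value_algebraMap f⟩

theorem gunit_const {c : L'} (hc : c ∈ v.ring) (h0 : v.value ⟨c, hc⟩ ≠ 0) :
    GUnit (F := F) (F' := F') v (algebraMap L' F' c) (algebraMap L F (v.value ⟨c, hc⟩)) := by
  obtain ⟨h, e⟩ := gauss_algebraMap_const (F := F) (F' := F') v hc
  exact ⟨by simpa using h0, h, e⟩

end

end Fermat.Agent.AV
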