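import Fermat.Agent.AV.PlaceExt
import Fermat.Agent.FF.RiemannRoch
import Mathlib.Algebra.Module.Submodule.Union
import Mathlib.LinearAlgebra.FiniteDimensional.Lemmas
import Mathlib.LinearAlgebra.Dimension.Constructions

/-!
# Linear algebra for reduction of Riemann–Roch spaces

Reduction of a subspace of `L'^ι` along a place of `L'` keeps its dimension; products of two
Riemann–Roch spaces span the Riemann–Roch space of the sum in large degree.
-/

set_option autoImplicit false

noncomputable section

open AlgebraicCurve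

namespace Fermat.Agent.AV

section Place

variable {L M : Type*} [Field L] [Field M] [Algebra L M] (v : LPlace L M) {ι : Type*}

theorem LPlace.exists_max [Finite ι] {x : ι → M} (hx : x ≠ 0) :
    ∃ j, x j ≠ 0 ∧ ∀ i, x i / x j ∈ v.ring := by
  classical
  have := Fintype.ofFinite ι
  obtain ⟨i₀, hi₀⟩ := Function.ne_iff.mp hx
  obtain ⟨j, -, hj⟩ := Finset.exists_max_image Finset.univ (fun i => v.ring.valuation (x i))
    ⟨i₀, Finset.mem_univ _⟩
  have hj0 : x j ≠ 0 := fun h => by
    have := hj i₀ (Finset.mem_univ _)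
    rw [h, map_zero, nonpos_iff_eq_zero, map_eq_zero] at this
    exact hi₀ this
  refine ⟨j, hj0, fun i => ?_⟩
  rw [← v.ring.valuation_le_one_iff, map_div₀, div_le_one₀ (zero_lt_iff.mpr (by simpa using hj0))]
  exact hj i (Finset.mem_univ _)

/-- The reduction of a subspace. -/
def LPlace.redSpace (W : Submodule M (ι → M)) : Submodule L (ι → L) where
  carrier := {y | ∃ x ∈ W, ∀ i, ∃ h : x i ∈ v.ring, v.value ⟨x i, h⟩ = y i}
  zero_mem' := ⟨0, zero_mem W, fun i => ⟨zero_mem v.ring, map_zero v.value⟩⟩
  add_mem' := by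
    rintro a b ⟨x, hx, hxa⟩ ⟨y, hy, hyb⟩
    exact ⟨x + y, add_mem hx hy, fun i => ⟨add_mem (hxa i).choose (hyb i).choose,
      (map_add v.value ⟨x i, (hxa i).choose⟩ ⟨y i, (hyb i).choose⟩).trans
        (congrArg₂ (· + ·) (hxa i).choose_spec (hyb i).choose_spec)⟩⟩
  smul_mem' := by
    rintro c a ⟨x, hx, hxa⟩
    refine ⟨algebraMap L M c • x, W.smul_mem _ hx, fun i => ⟨?_, ?_⟩⟩
    · exact mul_mem (v.algebraMap_mem c) (hxa i).choose
    · exact (map_mul v.value ⟨_, v.algebraMap_mem c⟩ ⟨x i, (hxa i).choose⟩).trans
        (congrArg₂ (· * ·) (v.value_algebraMap c) (hxa i).choose_spec)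

theorem LPlace.finrank_redSpace [Finite ι] (W : Submodule M (ι → M)) :
    Module.finrank L (v.redSpace W) = Module.finrank M W := by
  classical
  refine le_antisymm ?_ ?_
  · let b := Module.finBasis L (v.redSpace W)
    choose x hxW hx using fun k => (b k).2
    have hli : LinearIndependent M (fun k => (⟨x k, hxW k⟩ : W)) := by
      rw [Fintype.linearIndependent_iff]
      intro c hc
      by_contra h
      push Not at h
      obtain ⟨k₀, hk₀⟩ := h
      obtain ⟨j, hj0, hj⟩ := v.exists_max (x := c) fun h => hk₀ (congrFun h k₀)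
      have hzero : ∀ i, ∑ k, v.value ⟨c k / c j, hj k⟩ * (b k : ι → L) i = 0 := by
        intro i
        have hc' : ∑ k, c k * x k i = 0 := by
          simpa [Finset.sum_apply] using congrFun (congrArg Subtype.val hc) i
        have h0 : ∑ k, (⟨c k / c j, hj k⟩ : v.ring) * ⟨x k i, (hx k i).choose⟩ = 0 := by
          apply Subtype.ext
          push_cast
          simp only [div_mul_eq_mul_div, ← Finset.sum_div, hc', zero_div]
        have := congrArg v.value h0
        simp only [map_sum, map_mul, map_zero] at this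
        rw [← this]
        exact Finset.sum_congr rfl fun k _ => by rw [(hx k i).choose_spec]
      have h1 := Fintype.linearIndependent_iff.mp b.linearIndependent
        (fun k => v.value ⟨c k / c j, hj k⟩)
        (Subtype.ext (funext fun i => by simpa [Finset.sum_apply] using hzero i)) j
      have : (⟨c j / c j, hj j⟩ : v.ring) = 1 := Subtype.ext (div_self hj0)
      rw [this, map_one] at h1
      exact one_ne_zero h1
    simpa using hli.fintype_card_le_finrank
  · induction hn : Module.finrank M W generalizing W with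
    | zero => exact Nat.zero_le _
    | succ n ih =>
      obtain ⟨s, hsW, hs0⟩ : ∃ s ∈ W, s ≠ 0 :=
        Submodule.exists_mem_ne_zero_of_ne_bot (fun h => by rw [h, finrank_bot] at hn; omega)
      obtain ⟨j, hj0, hj⟩ := v.exists_max hs0
      let f : W →ₗ[M] M := (LinearMap.proj j).comp W.subtype
      have hf : Function.Surjective f := fun c => ⟨⟨(c / s j) • s, W.smul_mem _ hsW⟩, by
        show c / s j * s j = c; exact div_mul_cancel₀ c hj0⟩
      let W₀ := W ⊓ LinearMap.ker (LinearMap.proj j : (ι → M) →ₗ[M] M)
      have hW₀ : Module.finrank M W₀ = n := by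
        have h1 := LinearMap.finrank_range_add_finrank_ker f
        rw [LinearMap.range_eq_top.mpr hf, finrank_top, Module.finrank_self, hn] at h1
        have h2 : Module.finrank M (LinearMap.ker f) = Module.finrank M W₀ := by
          rw [← Submodule.finrank_map_subtype_eq W (LinearMap.ker f)]
          have e : (LinearMap.ker f).map W.subtype = W₀ := by
            rw [LinearMap.ker_comp, Submodule.map_comap_subtype]
          rw [e]
        omega
      have h0 : v.redSpace W₀ < v.redSpace W := by
        refine lt_of_le_of_ne (fun y ⟨x, hx, h⟩ => ⟨x, hx.1, h⟩) fun e => ?_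
        have hy : (fun i => v.value ⟨s i / s j, hj i⟩) ∈ v.redSpace W :=
          ⟨fun i => s i / s j, by
            convert W.smul_mem (s j)⁻¹ hsW using 1
            funext i
            simp [div_eq_inv_mul], fun i => ⟨hj i, rfl⟩⟩
        rw [← e] at hy
        obtain ⟨x, hx, hxy⟩ := hy
        obtain ⟨hm, he⟩ := hxy j
        rw [show (⟨x j, hm⟩ : v.ring) = 0 from Subtype.ext hx.2, map_zero] at he
        beta_reduce at he
        rw [show (⟨s j / s j, hj j⟩ : v.ring) = 1 from Subtype.ext (div_self hj0), map_one] at he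
        exact zero_ne_one he
      have := Submodule.finrank_lt_finrank_of_lt h0
      have := ih W₀ hW₀
      omega

end Place

section Product

open Fermat.Agent.FF

variable {K F : Type*} [Field K] [Field F] [Algebra K F] [IsFunctionField K F] [IsAlgClosed K]

theorem degree_single_eq_self (v : Place K F) (n : ℤ) :
    Divisor.degree (Finsupp.single v n) = n := by
  rw [Divisor.degree_single, v.deg_eq_one_of_isAlgClosed_of_finite, Nat.cast_one, mul_one]

/-- In degree at least `2 g`, some section has the exact order allowed at finitely many places. -/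
theorem exists_mem_riemannRochSpace_ord_eq {A : Divisor K F}
    (hA : 2 * (genusFF K F : ℤ) ≤ Divisor.degree A) (S : Finset (Place K F)) :
    ∃ t : F, t ≠ 0 ∧ t ∈ riemannRochSpace A ∧ ∀ Q ∈ S, Q.ord t = -A Q := by
  classical
  obtain ⟨Q₀⟩ : Nonempty (Place K F) := inferInstance
  let p : ↥(insert Q₀ S) → Submodule K (riemannRochSpace A) := fun Q =>
    (riemannRochSpace (A - Finsupp.single Q.1 1)).comap (riemannRochSpace A).subtype
  have hp : ∀ Q, p Q ≠ ⊤ := by
    intro Q htop
    have h1 : riemannRochSpace A ≤ riemannRochSpace (A - Finsupp.single Q.1 1) :=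
      fun f hf => show (⟨f, hf⟩ : riemannRochSpace A) ∈ p Q by rw [htop]; trivial
    have h2 := Submodule.finrank_mono h1
    have hd : Divisor.degree (A - Finsupp.single Q.1 1) = Divisor.degree A - 1 := by
      rw [map_sub, degree_single_eq_self]
    have h3 := finrank_riemannRochSpace_of_lt_degree (D := A) (by omega)
    have h4 := finrank_riemannRochSpace_of_lt_degree
      (D := A - Finsupp.single Q.1 1) (by omega)
    omega
  obtain ⟨t, ht⟩ := Submodule.exists_forall_notMem_of_forall_ne_top p hp
  have ht0 : (t : F) ≠ 0 := fun h => by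
    refine ht ⟨Q₀, Finset.mem_insert_self _ _⟩ ?_
    show (t : F) ∈ riemannRochSpace (A - Finsupp.single Q₀ 1)
    rw [h]
    exact zero_mem _
  refine ⟨t, ht0, t.2, fun Q hQ => ?_⟩
  have h1 := ((mem_riemannRochSpace_iff.mp t.2) Q).resolve_left ht0
  by_contra hne
  refine ht ⟨Q, Finset.mem_insert_of_mem hQ⟩ ?_
  show (t : F) ∈ riemannRochSpace (A - Finsupp.single Q 1)
  rw [mem_riemannRochSpace_iff]
  intro w
  have h2 := ((mem_riemannRochSpace_iff.mp t.2) w).resolve_left ht0
  refine Or.inr ?_
  rw [Finsupp.sub_apply, Finsupp.single_apply]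
  split_ifs with e
  · subst e; omega
  · omega

/-- Products of sections span the Riemann–Roch space of the sum in large degree. -/
theorem riemannRochSpace_add_le {A B : Divisor K F}
    (hA : 2 * (genusFF K F : ℤ) ≤ Divisor.degree A)
    (hB : 2 * (genusFF K F : ℤ) + Divisor.degree A ≤ Divisor.degree B + 1)
    {U : Submodule K F}
    (hU : ∀ s ∈ riemannRochSpace A, ∀ u ∈ riemannRochSpace B, s * u ∈ U) :
    riemannRochSpace (A + B) ≤ U := by
  classical
  obtain ⟨s, hs0, hs, -⟩ := exists_mem_riemannRochSpace_ord_eq hA ∅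
  obtain ⟨t, ht0, ht, hts⟩ := exists_mem_riemannRochSpace_ord_eq hA
    (((finite_ord_ne_zero (K := K) s).toFinset) ∪ A.support)
  have hbase : ∀ Q : Place K F, Q.ord s = -A Q ∨ Q.ord t = -A Q := by
    intro Q
    by_cases h : Q ∈ (finite_ord_ne_zero (K := K) s).toFinset ∪ A.support
    · exact Or.inr (hts Q h)
    · simp only [Finset.mem_union, Set.Finite.mem_toFinset, Set.mem_ofPred_eq, Finsupp.mem_support_iff,
        not_or, not_not] at h
      exact Or.inl (by rw [h.1, h.2, neg_zero])
  let V := riemannRochSpace B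
  let Φ : (V × V) →ₗ[K] F :=
    ((LinearMap.mulLeft K s).comp V.subtype).coprod ((LinearMap.mulLeft K t).comp V.subtype)
  have hΦ : ∀ a b : V, Φ (a, b) = s * a + t * b := fun a b => rfl
  have hrU : LinearMap.range Φ ≤ U := by
    rintro _ ⟨⟨a, b⟩, rfl⟩
    rw [hΦ]
    exact add_mem (hU s hs a a.2) (hU t ht b b.2)
  have hmul : ∀ (u : F) (a : V), u ∈ riemannRochSpace A → u * a ∈ riemannRochSpace (A + B) := by
    intro u a hu
    rw [mem_riemannRochSpace_iff]
    intro Q
    by_cases h : u * (a : F) = 0
    · exact Or.inl h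
    obtain ⟨h1, h2⟩ := mul_ne_zero_iff.mp h
    have := ((mem_riemannRochSpace_iff.mp hu) Q).resolve_left h1
    have := ((mem_riemannRochSpace_iff.mp a.2) Q).resolve_left h2
    refine Or.inr ?_
    rw [Q.ord_mul h1 h2, Finsupp.add_apply]
    omega
  have hrle : LinearMap.range Φ ≤ riemannRochSpace (A + B) := by
    rintro _ ⟨⟨a, b⟩, rfl⟩
    rw [hΦ]
    exact add_mem (hmul s a hs) (hmul t b ht)
  have hker : Module.finrank K (LinearMap.ker Φ) ≤
      Module.finrank K (riemannRochSpace (B - A)) := by
    have hz : ∀ z ∈ LinearMap.ker Φ, (z.1 : F) / t ∈ riemannRochSpace (B - A) := by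
      rintro ⟨⟨a, ha⟩, ⟨b, hb⟩⟩ hz
      have e : s * a + t * b = 0 := hz
      show a / t ∈ _
      rw [mem_riemannRochSpace_iff]
      intro Q
      rcases eq_or_ne a 0 with rfl | ha0
      · exact Or.inl (zero_div _)
      have hb0 : b ≠ 0 := by
        rintro rfl
        simp [hs0, ha0] at e
      refine Or.inr ?_
      rw [ord_div Q ha0 ht0, Finsupp.sub_apply]
      have h1 := ((mem_riemannRochSpace_iff.mp ha) Q).resolve_left ha0
      have h2 := ((mem_riemannRochSpace_iff.mp hb) Q).resolve_left hb0
      rcases hbase Q with h | h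
      · have : Q.ord (s * a) = Q.ord (t * b) := by
          rw [eq_neg_of_add_eq_zero_left e, ord_neg]
        rw [Q.ord_mul hs0 ha0, Q.ord_mul ht0 hb0] at this
        omega
      · omega
    let g : LinearMap.ker Φ →ₗ[K] riemannRochSpace (B - A) :=
      LinearMap.codRestrict _
        ((LinearMap.mulLeft K t⁻¹).comp ((V.subtype.comp (LinearMap.fst K V V)).comp
          (LinearMap.ker Φ).subtype))
        fun z => by
          show t⁻¹ * (z.1.1 : F) ∈ _
          rw [mul_comm, ← div_eq_mul_inv]
          exact hz z.1 z.2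
    refine LinearMap.finrank_le_finrank_of_injective (f := g) fun z w h => ?_
    have h1 : t⁻¹ * (z.1.1 : F) = t⁻¹ * (w.1.1 : F) := congrArg Subtype.val h
    have h2 : (z.1.1 : F) = w.1.1 := mul_left_cancel₀ (inv_ne_zero ht0) h1
    have hz2 : s * z.1.1 + t * z.1.2 = 0 := z.2
    have hw2 : s * w.1.1 + t * w.1.2 = 0 := w.2
    rw [h2, ← hw2] at hz2
    exact Subtype.ext (Prod.ext (Subtype.ext h2)
      (Subtype.ext (mul_left_cancel₀ ht0 (add_left_cancel hz2))))
  have hrk := LinearMap.finrank_range_add_finrank_ker Φ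
  rw [Module.finrank_prod] at hrk
  simp only [V] at hrk hker
  have h3 := finrank_riemannRochSpace_of_lt_degree (D := B) (by omega)
  have h4 := finrank_riemannRochSpace_of_lt_degree (D := B - A) (by rw [map_sub]; omega)
  have h5 := finrank_riemannRochSpace_of_lt_degree (D := A + B) (by rw [map_add]; omega)
  rw [map_sub] at h4
  rw [map_add] at h5
  rw [← Submodule.eq_of_le_of_finrank_le hrle (by omega)]
  exact hrU

end Product

end Fermat.Agent.AV
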